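import Mathlib

/-!
Abstract Deligne–Serre lifting: a commutative ring `𝕋` acting faithfully on a finite-dimensional
complex vector space `V`, preserving a finitely generated `ℤ`-lattice spanning `V`, and a maximal
ideal `𝔫` of `𝕋`.  Then there is a common eigenvector whose eigencharacter has integral values
and sends `𝔫` into a maximal ideal of the ring of algebraic integers.
-/

set_option autoImplicit false

namespace Fermat.Agent.S49

open Module

section Abstract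

variable {V : Type*} [AddCommGroup V] [Module ℂ V]
variable {𝕋 : Type*} [CommRing 𝕋]

lemma exists_min_finrank (P : Submodule ℂ V → Prop) (h : ∃ W, P W) :
    ∃ W, P W ∧ ∀ W', P W' → finrank ℂ W ≤ finrank ℂ W' := by
  classical
  have hex : ∃ n, ∃ W, P W ∧ finrank ℂ W = n := by
    obtain ⟨W, hW⟩ := h
    exact ⟨_, W, hW, rfl⟩
  obtain ⟨W, hW, hn⟩ := Nat.find_spec hex
  refine ⟨W, hW, fun W' hW' => ?_⟩
  rw [hn]
  exact Nat.find_min' hex ⟨W', hW', rfl⟩

lemma exists_stable_injective [FiniteDimensional ℂ V] (ι : 𝕋 →+* Module.End ℂ V)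
    (hι : Function.Injective ι) (𝔫 : Ideal 𝕋) [h𝔫 : 𝔫.IsPrime] :
    ∃ W : Submodule ℂ V, W ≠ ⊥ ∧ (∀ T : 𝕋, ∀ w ∈ W, ι T w ∈ W) ∧
      ∀ s : 𝕋, s ∉ 𝔫 → ∀ w ∈ W, ι s w = 0 → w = 0 := by
  have h1 : (1 : 𝕋) ∉ 𝔫 := fun h => h𝔫.ne_top ((Ideal.eq_top_iff_one 𝔫).mpr h)
  obtain ⟨W, ⟨s₀, hs₀, rfl⟩, hmin⟩ := exists_min_finrank (V := V)
    (fun W => ∃ s : 𝕋, s ∉ 𝔫 ∧ W = LinearMap.range (ι s)) ⟨_, 1, h1, rfl⟩
  have hstab : ∀ T : 𝕋, ∀ w ∈ LinearMap.range (ι s₀), ι T w ∈ LinearMap.range (ι s₀) := by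
    rintro T _ ⟨v, rfl⟩
    refine ⟨ι T v, ?_⟩
    rw [← Module.End.mul_apply, ← map_mul, mul_comm, map_mul, Module.End.mul_apply]
  refine ⟨LinearMap.range (ι s₀), ?_, hstab, ?_⟩
  · intro h
    rw [LinearMap.range_eq_bot] at h
    have : s₀ = 0 := hι (by rw [h, map_zero])
    exact hs₀ (this ▸ 𝔫.zero_mem)
  · intro s hs
    have hle : LinearMap.range (ι (s * s₀)) ≤ LinearMap.range (ι s₀) := by
      rintro _ ⟨v, rfl⟩
      refine ⟨ι s v, ?_⟩
      rw [← Module.End.mul_apply, ← map_mul, mul_comm]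
    have hss : s * s₀ ∉ 𝔫 := fun h => (h𝔫.mem_or_mem h).elim hs hs₀
    have hfr := hmin _ ⟨s * s₀, hss, rfl⟩
    have heq : LinearMap.range (ι (s * s₀)) = LinearMap.range (ι s₀) :=
      Submodule.eq_of_le_of_finrank_le hle hfr
    have hsurj : Function.Surjective ((ι s).restrict (hstab s)) := by
      rintro ⟨w, hw⟩
      rw [← heq] at hw
      obtain ⟨v, rfl⟩ := hw
      refine ⟨⟨ι s₀ v, ⟨v, rfl⟩⟩, ?_⟩
      apply Subtype.ext
      rw [LinearMap.coe_restrict_apply]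
      simp only [map_mul, Module.End.mul_apply]
    have hinj : Function.Injective ((ι s).restrict (hstab s)) :=
      LinearMap.injective_iff_surjective.mpr hsurj
    intro w hw hw0
    have : (⟨w, hw⟩ : LinearMap.range (ι s₀)) = 0 := by
      apply hinj
      apply Subtype.ext
      rw [LinearMap.coe_restrict_apply, map_zero]
      simpa using hw0
    simpa using congrArg Subtype.val this

lemma exists_common_eigenvector [FiniteDimensional ℂ V] (ι : 𝕋 →+* Module.End ℂ V)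
    (W : Submodule ℂ V) (hW : W ≠ ⊥) (hstab : ∀ T : 𝕋, ∀ w ∈ W, ι T w ∈ W) :
    ∃ g ∈ W, g ≠ 0 ∧ ∀ T : 𝕋, ∃ c : ℂ, ι T g = c • g := by
  obtain ⟨W', ⟨hW'ne, hW'le, hW'stab⟩, hmin⟩ := exists_min_finrank (V := V)
    (fun W' => W' ≠ ⊥ ∧ W' ≤ W ∧ ∀ T : 𝕋, ∀ w ∈ W', ι T w ∈ W') ⟨W, hW, le_rfl, hstab⟩
  obtain ⟨g, hgW', hg0⟩ := Submodule.exists_mem_ne_zero_of_ne_bot hW'ne
  refine ⟨g, hW'le hgW', hg0, fun T => ?_⟩
  have : Nontrivial W' := Submodule.nontrivial_iff_ne_bot.mpr hW'ne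
  obtain ⟨c, hc⟩ := Module.End.exists_eigenvalue ((ι T).restrict (hW'stab T))
  obtain ⟨w, hw⟩ := hc.exists_hasEigenvector
  refine ⟨c, ?_⟩
  -- the eigenspace inside `W'`
  set E : Submodule ℂ V := W' ⊓ LinearMap.ker (ι T - c • (1 : Module.End ℂ V)) with hE
  have hmemE : ∀ x : V, x ∈ E ↔ x ∈ W' ∧ ι T x = c • x := by
    intro x
    rw [hE, Submodule.mem_inf, LinearMap.mem_ker, LinearMap.sub_apply, LinearMap.smul_apply,
      Module.End.one_apply, sub_eq_zero]
  have hwE : (w : V) ∈ E := by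
    rw [hmemE]
    refine ⟨w.2, ?_⟩
    have := hw.apply_eq_smul
    have h2 := congrArg Subtype.val this
    rw [LinearMap.coe_restrict_apply] at h2
    simpa using h2
  have hEne : E ≠ ⊥ := by
    intro h
    rw [h, Submodule.mem_bot] at hwE
    exact hw.2 (Subtype.ext hwE)
  have hEle : E ≤ W' := inf_le_left
  have hEstab : ∀ S : 𝕋, ∀ x ∈ E, ι S x ∈ E := by
    intro S x hx
    rw [hmemE] at hx ⊢
    obtain ⟨hx1, hx2⟩ := hx
    refine ⟨hW'stab S x hx1, ?_⟩
    rw [← Module.End.mul_apply, ← map_mul, mul_comm, map_mul, Module.End.mul_apply, hx2,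
      map_smul]
  have hfr := hmin E ⟨hEne, hEle.trans hW'le, hEstab⟩
  have hEeq : E = W' := Submodule.eq_of_le_of_finrank_le hEle hfr
  have hgE : g ∈ E := hEeq ▸ hgW'
  exact ((hmemE g).mp hgE).2

/-- restriction of the action to a stable lattice, as a ring hom -/
noncomputable def latticeRestrict (ι : 𝕋 →+* Module.End ℂ V) (L : Submodule ℤ V)
    (hLstab : ∀ T : 𝕋, ∀ v ∈ L, ι T v ∈ L) : 𝕋 →+* Module.End ℤ L where
  toFun T := ((ι T).restrictScalars ℤ).restrict (hLstab T)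
  map_one' := by
    ext v
    simp
  map_mul' S T := by
    ext v
    simp only [map_mul]
    rfl
  map_zero' := by
    ext v
    simp
  map_add' S T := by
    ext v
    simp only [map_add]
    rfl

lemma latticeRestrict_apply (ι : 𝕋 →+* Module.End ℂ V) (L : Submodule ℤ V)
    (hLstab : ∀ T : 𝕋, ∀ v ∈ L, ι T v ∈ L) (T : 𝕋) (v : L) :
    ((latticeRestrict ι L hLstab T v : L) : V) = ι T v := rfl

lemma latticeRestrict_injective (ι : 𝕋 →+* Module.End ℂ V) (hι : Function.Injective ι)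
    (L : Submodule ℤ V) (hLspan : Submodule.span ℂ (L : Set V) = ⊤)
    (hLstab : ∀ T : 𝕋, ∀ v ∈ L, ι T v ∈ L) :
    Function.Injective (latticeRestrict ι L hLstab) := by
  rw [injective_iff_map_eq_zero]
  intro T hT
  apply hι
  rw [map_zero]
  apply LinearMap.ext_on hLspan
  intro v hv
  have := congrArg (fun f : Module.End ℤ L => ((f ⟨v, hv⟩ : L) : V)) hT
  simpa [latticeRestrict_apply] using this

lemma isIntegral_of_lattice (ι : 𝕋 →+* Module.End ℂ V) (hι : Function.Injective ι)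
    (L : Submodule ℤ V) (hLfg : L.FG) (hLspan : Submodule.span ℂ (L : Set V) = ⊤)
    (hLstab : ∀ T : 𝕋, ∀ v ∈ L, ι T v ∈ L) (T : 𝕋) : IsIntegral ℤ T := by
  have : Module.Finite ℤ L := Module.Finite.of_fg hLfg
  have h1 : IsIntegral ℤ (latticeRestrict ι L hLstab T) :=
    (Module.End.isIntegral (R := ℤ) (M := L)).isIntegral _
  exact (isIntegral_algHom_iff (latticeRestrict ι L hLstab).toIntAlgHom
    (latticeRestrict_injective ι hι L hLspan hLstab)).mp h1

theorem exists_eigen_lift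
    (ι : 𝕋 →+* Module.End ℂ V) (hι : Function.Injective ι)
    (L : Submodule ℤ V) (hLfg : L.FG) (hLspan : Submodule.span ℂ (L : Set V) = ⊤)
    (hLstab : ∀ T : 𝕋, ∀ v ∈ L, ι T v ∈ L)
    (𝔫 : Ideal 𝕋) [h𝔫 : 𝔫.IsMaximal] :
    ∃ (g : V) (χ : 𝕋 →+* integralClosure ℤ ℂ) (𝔪' : Ideal (integralClosure ℤ ℂ)),
      g ≠ 0 ∧ (∀ T, ι T g = ((χ T : integralClosure ℤ ℂ) : ℂ) • g) ∧ 𝔪'.IsMaximal ∧
      ∀ T ∈ 𝔫, χ T ∈ 𝔪' := by
  classical
  -- finite-dimensionality
  have : FiniteDimensional ℂ V := by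
    obtain ⟨S, hS⟩ := hLfg
    refine Module.finite_def.mpr ⟨S, ?_⟩
    rw [← hLspan, ← hS, Submodule.span_span_of_tower]
  obtain ⟨W, hWne, hWstab, hWinj⟩ := exists_stable_injective ι hι 𝔫
  obtain ⟨g, hgW, hg0, hgeig⟩ := exists_common_eigenvector ι W hWne hWstab
  choose χ₀ hχ₀ using hgeig
  have hinj : Function.Injective (fun c : ℂ => c • g) := smul_left_injective ℂ hg0
  let χ' : 𝕋 →+* ℂ :=
    { toFun := χ₀
      map_one' := by
        apply hinj
        simp only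
        rw [← hχ₀, map_one, Module.End.one_apply, one_smul]
      map_mul' := fun S T => by
        apply hinj
        simp only
        rw [← hχ₀, map_mul, Module.End.mul_apply, hχ₀ T, map_smul, hχ₀ S, smul_smul, mul_comm]
      map_zero' := by
        apply hinj
        simp only
        rw [← hχ₀, map_zero, LinearMap.zero_apply, zero_smul]
      map_add' := fun S T => by
        apply hinj
        simp only
        rw [← hχ₀, map_add, LinearMap.add_apply, hχ₀ S, hχ₀ T, add_smul] }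
  have hχ'int : ∀ T, χ' T ∈ integralClosure ℤ ℂ := fun T =>
    (isIntegral_of_lattice ι hι L hLfg hLspan hLstab T).map χ'.toIntAlgHom
  let χ : 𝕋 →+* integralClosure ℤ ℂ := χ'.codRestrict (integralClosure ℤ ℂ) hχ'int
  have hχ : ∀ T, ((χ T : integralClosure ℤ ℂ) : ℂ) = χ₀ T := fun T => rfl
  have hker : RingHom.ker χ ≤ 𝔫 := by
    intro T hT
    by_contra hTn
    rw [RingHom.mem_ker] at hT
    have h0 : χ₀ T = 0 := by rw [← hχ, hT]; rfl
    have := hWinj T hTn g hgW (by rw [hχ₀, h0, zero_smul])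
    exact hg0 this
  letI : Algebra 𝕋 (integralClosure ℤ ℂ) := χ.toAlgebra
  have : Algebra.IsIntegral 𝕋 (integralClosure ℤ ℂ) :=
    ⟨fun x => (integralClosure.isIntegral x).tower_top⟩
  obtain ⟨Q, hQmax, hQ⟩ := Ideal.exists_ideal_over_maximal_of_isIntegral
    (S := integralClosure ℤ ℂ) 𝔫 (by rwa [RingHom.algebraMap_toAlgebra])
  refine ⟨g, χ, Q, hg0, fun T => by rw [hχ]; exact hχ₀ T, hQmax, fun T hT => ?_⟩
  rw [← hQ, Ideal.mem_comap, RingHom.algebraMap_toAlgebra] at hT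
  exact hT

end Abstract

end Fermat.Agent.S49
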