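import Mathlib
import Fermat.Prelude.Def_FormalHecke_Eigensystem

/-!
Formal Hecke eigensystems are multiplicative and satisfy the prime-power recursion.
-/

set_option autoImplicit false

namespace Fermat.Agent.S49

open FormalHecke

variable {R : Type*} [CommRing R]

theorem mul_of_isEigensystem {e a : ℕ → R} (h : IsEigensystem e a) :
    ∀ m n : ℕ, m.Coprime n → a (m * n) = a m * a n := by
  obtain ⟨h1, hrec⟩ := h
  intro m
  induction m using Nat.strong_induction_on with
  | _ m ih =>
    intro n hmn
    rcases Nat.lt_or_ge m 2 with hm | hm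
    · interval_cases m
      · have hn : n = 1 := by simpa using hmn
        subst hn
        simp [h1]
      · simp [h1]
    · obtain ⟨p, hp, m', rfl⟩ : ∃ p, p.Prime ∧ ∃ m', m = p * m' :=
        ⟨m.minFac, Nat.minFac_prime (by omega), Nat.minFac_dvd m⟩
      have hm'pos : 0 < m' := by
        rcases Nat.eq_zero_or_pos m' with h0 | h0
        · subst h0; omega
        · exact h0
      have hm'lt : m' < p * m' := by
        have := hp.two_le
        nlinarith
      have hpn : ¬ p ∣ n := fun hdvd =>
        hp.one_lt.ne' (Nat.eq_one_of_dvd_coprimes hmn (dvd_mul_right p m') hdvd)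
      have hm'n : m'.Coprime n := Nat.Coprime.coprime_mul_left hmn
      have e1 := hrec p hp (m' * n)
      have e2 := hrec p hp m'
      rw [mul_assoc]
      by_cases hpm : p ∣ m'
      · obtain ⟨m'', rfl⟩ := hpm
        have hdvd : p ∣ p * m'' * n := Dvd.intro (m'' * n) (by ring)
        rw [if_pos hdvd] at e1
        rw [if_pos (dvd_mul_right p m'')] at e2
        have hq1 : p * m'' * n / p = m'' * n := by
          rw [mul_assoc]; exact Nat.mul_div_cancel_left _ hp.pos
        have hq2 : p * m'' / p = m'' := Nat.mul_div_cancel_left _ hp.pos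
        rw [hq1] at e1
        rw [hq2] at e2
        have hm''lt : m'' < p * (p * m'') := by
          have hm''pos : 0 < m'' := by
            rcases Nat.eq_zero_or_pos m'' with h0 | h0
            · subst h0; simp at hm'pos
            · exact h0
          have := hp.two_le
          nlinarith
        have ih1 := ih (p * m'') hm'lt n hm'n
        have ih2 := ih m'' hm''lt n (Nat.Coprime.coprime_mul_left hm'n)
        rw [ih1, ih2] at e1
        linear_combination e1 - a n * e2
      · have hndvd : ¬ p ∣ m' * n := by
          rw [hp.dvd_mul]; tauto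
        rw [if_neg hndvd, mul_zero, add_zero] at e1
        rw [if_neg hpm, mul_zero, add_zero] at e2
        have ih1 := ih m' hm'lt n hm'n
        rw [e1, ih1, e2]
        ring

theorem isRecursive_of_isEigensystem {e a : ℕ → R} (h : IsEigensystem e a) :
    IsRecursive e a := by
  refine ⟨h.1, mul_of_isEigensystem h, fun ℓ r hℓ => ?_⟩
  have e1 := h.2 ℓ hℓ (ℓ ^ (r + 1))
  rw [if_pos (dvd_pow_self ℓ (Nat.succ_ne_zero r))] at e1
  have hq : ℓ ^ (r + 1) / ℓ = ℓ ^ r := by
    rw [pow_succ]; exact Nat.mul_div_cancel _ hℓ.pos
  rw [hq] at e1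
  have hpow : ℓ * ℓ ^ (r + 1) = ℓ ^ (r + 2) := by ring
  rw [hpow] at e1
  linear_combination e1

end Fermat.Agent.S49
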