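import Mathlib
import Fermat.Prelude.Def_CuspForm_IntegralLattice
import Fermat.Prelude.Def_FormalHecke_Eigensystem
import Fermat.Prelude.Def_ModularForm_EisensteinChiNegThree
import Fermat.Prelude.Def_FLTPrelim_Modularity
import Fermat.Prelude.Def_CuspForm_HeckeAlgebra
import Fermat.Prelude.Thm_CuspForm_intLattice_fg
import Fermat.Prelude.Thm_CuspForm_mem_intLattice_of_mem_heckeAlgebra
import Fermat.Prelude.Thm_ModularFormClass_qCoeff_heckeT
import Fermat.Prelude.Thm_ModularFormClass_qCoeff_heckeU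
import Fermat.Prelude.Thm_CongruenceSubgroup_one_mem_strictPeriods_Gamma0
import Fermat.Agent.S49.Lifting
import Fermat.Agent.S49.Recursion

/-!
Glue between the abstract lifting theorem and weight-2 cusp forms on `Γ₀(N)`.
-/

set_option autoImplicit false

namespace Fermat.Agent.S49

open CuspForm EisensteinWeightOne CongruenceSubgroup ModularFormClass UpperHalfPlane

variable {N : ℕ}

theorem hΓ0 (N : ℕ) :
    (1 : ℝ) ∈ (Subgroup.map (Matrix.SpecialLinearGroup.mapGL ℝ) (Gamma0 N)).strictPeriods :=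
  CongruenceSubgroup.one_mem_strictPeriods_Gamma0 N

theorem qc_add (f g : CuspForm (Gamma0 N) 2) (n : ℕ) :
    qCoeff ⇑(f + g) n = qCoeff ⇑f n + qCoeff ⇑g n :=
  P2MW.S_CuspForm_intLattice_fg.W3WsD.qCoeff_add f g n

theorem qc_zero (n : ℕ) : qCoeff ⇑(0 : CuspForm (Gamma0 N) 2) n = 0 :=
  P2MW.S_CuspForm_intLattice_fg.W3WsD.qCoeff_zero' n

theorem qc_zsmul (c : ℤ) (f : CuspForm (Gamma0 N) 2) (n : ℕ) :
    qCoeff ⇑(c • f) n = c * qCoeff ⇑f n :=
  P2MW.S_CuspForm_intLattice_fg.W3WsD.qCoeff_zsmul c f n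

theorem qc_smul (c : ℂ) (f : CuspForm (Gamma0 N) 2) (n : ℕ) :
    qCoeff ⇑(c • f) n = c * qCoeff ⇑f n := by
  have h1 : ⇑(c • f) = c • ⇑f := by
    ext z
    simp
  simp only [qCoeff, h1]
  rw [ModularForm.qExpansion_smul one_pos (hΓ0 N) c f]
  simp

theorem qc_sub (f g : CuspForm (Gamma0 N) 2) (n : ℕ) :
    qCoeff ⇑(f - g) n = qCoeff ⇑f n - qCoeff ⇑g n := by
  have h1 : f - g = f + (-1 : ℤ) • g := by
    simp [sub_eq_add_neg]
  rw [h1, qc_add, qc_zsmul]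
  push_cast
  ring

theorem qc_cusp (f : CuspForm (Gamma0 N) 2) : qCoeff ⇑f 0 = 0 :=
  CuspFormClass.qExpansion_coeff_zero f one_pos (hΓ0 N)

theorem qc_T {ℓ : ℕ} (hℓ : ℓ.Prime) (hℓN : ¬ ℓ ∣ N) (f : CuspForm (Gamma0 N) 2) (n : ℕ) :
    qCoeff ⇑(heckeTLin 2 hℓ hℓN f) n =
      qCoeff ⇑f (n * ℓ) + if ℓ ∣ n then (ℓ : ℂ) * qCoeff ⇑f (n / ℓ) else 0 := by
  rw [CuspForm.coe_heckeTLin_apply, ModularFormClass.qCoeff_heckeT f (hΓ0 N) hℓ.ne_zero n,
    ModularForm.coeffHeckeT_apply]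
  norm_num

theorem qc_U [NeZero N] {q : ℕ} (hq : q.Prime) (hqN : q ∣ N) (f : CuspForm (Gamma0 N) 2) (n : ℕ) :
    qCoeff ⇑(heckeULin 2 hqN f) n = qCoeff ⇑f (n * q) := by
  rw [CuspForm.coe_heckeULin_apply, ModularFormClass.qCoeff_heckeU f (hΓ0 N) hq.ne_zero n,
    ModularForm.coeffHeckeU_apply]

theorem eq_zero_of_qc [NeZero N] (f : CuspForm (Gamma0 N) 2) (h : ∀ n, qCoeff ⇑f n = 0) :
    f = 0 := by
  apply P2MW.S_CuspForm_intLattice_fg.W3WsD.trunc_injective N 2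
  rw [map_zero]
  funext i
  exact h i

theorem mem_intLattice_iff' (f : CuspForm (Gamma0 N) 2) :
    f ∈ CuspForm.intLattice N 2 ↔ ∀ n : ℕ, ∃ m : ℤ, qCoeff ⇑f n = (m : ℂ) :=
  P2MW.S_CuspForm_intLattice_fg.W3WsD.mem_intLattice_iff f

/-- the weight-one Eisenstein series is `1` mod `3` -/
theorem bridge_coeff_zmod (a : ℕ → ℤ) (n : ℕ) :
    (((bridgeProduct a).coeff n : ℤ) : ZMod 3) = ((a n : ℤ) : ZMod 3) := by
  have hE : PowerSeries.map (Int.castRingHom (ZMod 3)) (e1Chi3In ℤ) = 1 := by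
    ext m
    rw [PowerSeries.coeff_map, e1Chi3In, PowerSeries.coeff_map, e1Chi3, PowerSeries.coeff_mk,
      PowerSeries.coeff_one]
    split_ifs with hm
    · simp
    · simp only [eq_intCast, Int.cast_id, Int.cast_mul, Int.cast_ofNat]
      have : (6 : ZMod 3) = 0 := by decide
      rw [this, zero_mul]
  have h1 := PowerSeries.coeff_map (Int.castRingHom (ZMod 3)) n (bridgeProduct a)
  have h2 : PowerSeries.map (Int.castRingHom (ZMod 3)) (bridgeProduct a) =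
      PowerSeries.map (Int.castRingHom (ZMod 3)) (PowerSeries.mk a) := by
    rw [bridgeProduct, map_mul, hE, mul_one]
  rw [h2, PowerSeries.coeff_map, PowerSeries.coeff_mk] at h1
  simpa using h1.symm

theorem chiNegThree_zmod (ℓ : ℕ) : ((chiNegThree ℓ : ℤ) : ZMod 3) = (ℓ : ZMod 3) := by
  have h : ((ℓ % 3 : ℕ) : ZMod 3) = (ℓ : ZMod 3) := ZMod.natCast_mod ℓ 3
  rw [← h, chiNegThree]
  have h3 : ℓ % 3 < 3 := Nat.mod_lt _ (by norm_num)
  interval_cases (ℓ % 3)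
  · simp
  · simp
  · simp
    decide

end Fermat.Agent.S49
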