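import Fermat.Agent.S49.Glue

/-!
Assembly of the lifting lemma for weight-2 cusp forms on `Γ₀(N)`.
-/

set_option autoImplicit false

namespace Fermat.Agent.S49

open CuspForm EisensteinWeightOne CongruenceSubgroup ModularFormClass UpperHalfPlane

variable {N : ℕ} [NeZero N]

/-- all `q`-coefficients are integers divisible by `3` -/
def Div3 (g : CuspForm (Gamma0 N) 2) : Prop :=
  ∀ n : ℕ, ∃ m : ℤ, qCoeff ⇑g n = 3 * (m : ℂ)

omit [NeZero N] in
lemma div3_zero : Div3 (0 : CuspForm (Gamma0 N) 2) := fun n => ⟨0, by rw [qc_zero]; simp⟩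

omit [NeZero N] in
lemma div3_add {g g' : CuspForm (Gamma0 N) 2} (h : Div3 g) (h' : Div3 g') : Div3 (g + g') := by
  intro n
  obtain ⟨m, hm⟩ := h n
  obtain ⟨m', hm'⟩ := h' n
  exact ⟨m + m', by rw [qc_add, hm, hm']; push_cast; ring⟩

lemma div3_hecke {g : CuspForm (Gamma0 N) 2} (h : Div3 g) (T : heckeAlgebra N 2 (∅ : Set ℕ)) :
    Div3 (T.1 g) := by
  have hh₀ : ((3 : ℂ)⁻¹ • g) ∈ intLattice N 2 := by
    rw [mem_intLattice_iff']
    intro n
    obtain ⟨m, hm⟩ := h n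
    exact ⟨m, by rw [qc_smul, hm]; field_simp⟩
  have hg : g = (3 : ℂ) • ((3 : ℂ)⁻¹ • g) := by
    rw [smul_smul]; norm_num
  have hT := CuspForm.mem_intLattice_of_mem_heckeAlgebra (by norm_num : (1 : ℤ) ≤ 2) T.2 hh₀
  rw [mem_intLattice_iff'] at hT
  intro n
  obtain ⟨m, hm⟩ := hT n
  refine ⟨m, ?_⟩
  rw [hg, map_smul, qc_smul, hm]

/-- the inclusion of the Hecke algebra into endomorphisms, as a ring hom -/
noncomputable def heckeIncl (N : ℕ) [NeZero N] :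
    heckeAlgebra N 2 (∅ : Set ℕ) →+* Module.End ℂ (CuspForm (Gamma0 N) 2) where
  toFun T := T.1
  map_one' := rfl
  map_mul' _ _ := rfl
  map_zero' := rfl
  map_add' _ _ := rfl

lemma heckeIncl_apply (T : heckeAlgebra N 2 (∅ : Set ℕ)) : heckeIncl N T = T.1 := rfl

lemma heckeIncl_injective : Function.Injective (heckeIncl N) := fun _ _ h => Subtype.ext h

/-- the ideal of Hecke operators sending `f₀` into `3 L` -/
def eigIdeal (f₀ : CuspForm (Gamma0 N) 2) : Ideal (heckeAlgebra N 2 (∅ : Set ℕ)) where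
  carrier := {T | Div3 (heckeIncl N T f₀)}
  add_mem' := fun {S T} hS hT => by
    show Div3 (heckeIncl N (S + T) f₀)
    rw [map_add, LinearMap.add_apply]
    exact div3_add hS hT
  zero_mem' := by
    show Div3 (heckeIncl N 0 f₀)
    rw [map_zero, LinearMap.zero_apply]
    exact div3_zero
  smul_mem' := fun S T hT => by
    show Div3 (heckeIncl N (S • T) f₀)
    rw [smul_eq_mul, map_mul, Module.End.mul_apply]
    exact div3_hecke hT S

lemma mem_eigIdeal (f₀ : CuspForm (Gamma0 N) 2) (T : heckeAlgebra N 2 (∅ : Set ℕ)) :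
    T ∈ eigIdeal f₀ ↔ Div3 (heckeIncl N T f₀) := Iff.rfl

lemma three_mem_eigIdeal (f₀ : CuspForm (Gamma0 N) 2) (af : ℕ → ℤ)
    (haf : ∀ n, (af n : ℂ) = qCoeff ⇑f₀ n) :
    (3 : heckeAlgebra N 2 (∅ : Set ℕ)) ∈ eigIdeal f₀ := by
  rw [mem_eigIdeal]
  intro n
  refine ⟨af n, ?_⟩
  have h3 : heckeIncl N 3 f₀ = (3 : ℤ) • f₀ := by
    have : (3 : heckeAlgebra N 2 (∅ : Set ℕ)) = ((3 : ℤ) : heckeAlgebra N 2 (∅ : Set ℕ)) := by
      norm_num
    rw [this, map_intCast, Module.End.intCast_apply]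
  rw [h3, qc_zsmul, haf]
  push_cast
  ring

lemma T_sub_mem_eigIdeal (f₀ : CuspForm (Gamma0 N) 2) (af : ℕ → ℤ)
    (haf : ∀ n, (af n : ℂ) = qCoeff ⇑f₀ n) {a : ℕ → ℤ}
    (heig : FormalHecke.IsEigensystem
      (fun ℓ => if ℓ ∣ N then 0 else ((chiNegThree ℓ : ℤ) : ℤ)) a)
    (hafa : ∀ n, ((af n : ℤ) : ZMod 3) = ((a n : ℤ) : ZMod 3))
    {ℓ : ℕ} (hℓ : ℓ.Prime) (hℓN : ¬ ℓ ∣ N) :
    heckeAlgebra.T hℓ hℓN (Set.notMem_empty ℓ) - ((a ℓ : ℤ) : heckeAlgebra N 2 (∅ : Set ℕ)) ∈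
      eigIdeal f₀ := by
  rw [mem_eigIdeal]
  intro n
  have h1 : heckeIncl N (heckeAlgebra.T hℓ hℓN (Set.notMem_empty ℓ) -
      ((a ℓ : ℤ) : heckeAlgebra N 2 (∅ : Set ℕ))) f₀ = heckeTLin 2 hℓ hℓN f₀ - (a ℓ) • f₀ := by
    rw [map_sub, map_intCast, LinearMap.sub_apply, Module.End.intCast_apply]
    rfl
  rw [h1, qc_sub, qc_T, qc_zsmul, ← haf, ← haf, ← haf]
  -- the integer
  set x : ℤ := af (n * ℓ) + (if ℓ ∣ n then (ℓ : ℤ) * af (n / ℓ) else 0) - a ℓ * af n with hx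
  have hx0 : ((x : ℤ) : ZMod 3) = 0 := by
    have e1 := heig.2 ℓ hℓ n
    beta_reduce at e1
    rw [if_neg hℓN] at e1
    have e2 := congrArg (Int.cast : ℤ → ZMod 3) e1
    rw [hx]
    by_cases hdvd : ℓ ∣ n
    · rw [if_pos hdvd] at e2 ⊢
      push_cast at e2 ⊢
      rw [hafa, hafa, hafa, mul_comm n ℓ, ← e2, chiNegThree_zmod]
      ring
    · rw [if_neg hdvd] at e2 ⊢
      push_cast at e2 ⊢
      rw [hafa, hafa, mul_comm n ℓ, ← e2]
      ring
  obtain ⟨m, hm⟩ := (ZMod.intCast_zmod_eq_zero_iff_dvd x 3).mp hx0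
  refine ⟨m, ?_⟩
  have hxc : ((x : ℤ) : ℂ) = 3 * (m : ℂ) := by
    rw [hm]; push_cast; ring
  rw [← hxc, hx]
  split_ifs <;> push_cast <;> ring

lemma one_not_mem_eigIdeal (f₀ : CuspForm (Gamma0 N) 2) (af : ℕ → ℤ)
    (haf : ∀ n, (af n : ℂ) = qCoeff ⇑f₀ n) {a : ℕ → ℤ} (ha1 : a 1 = 1)
    (hafa : ∀ n, ((af n : ℤ) : ZMod 3) = ((a n : ℤ) : ZMod 3)) :
    (1 : heckeAlgebra N 2 (∅ : Set ℕ)) ∉ eigIdeal f₀ := by
  rw [mem_eigIdeal]
  intro h
  obtain ⟨m, hm⟩ := h 1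
  rw [map_one, Module.End.one_apply, ← haf] at hm
  have hm' : af 1 = 3 * m := by exact_mod_cast hm
  have h0 := hafa 1
  rw [hm', ha1] at h0
  push_cast at h0
  have h3 : (3 : ZMod 3) = 0 := by decide
  rw [h3, zero_mul] at h0
  exact zero_ne_one h0

omit [NeZero N] in
lemma span_intLattice_eq_top (h : CuspForm.HasIntegralBasis N) :
    Submodule.span ℂ ((intLattice N 2 : Submodule ℤ (CuspForm (Gamma0 N) 2)) :
      Set (CuspForm (Gamma0 N) 2)) = ⊤ := by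
  rw [eq_top_iff, ← h]
  apply Submodule.span_mono
  intro f hf
  apply Submodule.subset_span
  intro n
  obtain ⟨m, hm⟩ := Subring.mem_bot.mp (hf n)
  exact ⟨m, hm.symm⟩

omit [NeZero N] in
/-- unified eigenvalue relation implies the normalized eigenform structure -/
lemma isNormalizedEigenform_of_rel (f : CuspForm (Gamma0 N) 2) (lam : ℕ → ℂ)
    (h1 : qCoeff ⇑f 1 = 1)
    (hrel : ∀ ℓ : ℕ, ℓ.Prime → ∀ n : ℕ,
      qCoeff ⇑f (n * ℓ) + (if ℓ ∣ N then 0 else (ℓ : ℂ)) *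
        (if ℓ ∣ n then qCoeff ⇑f (n / ℓ) else 0) = lam ℓ * qCoeff ⇑f n) :
    f.IsNormalizedEigenform := by
  have hlam : ∀ ℓ : ℕ, ℓ.Prime → lam ℓ = qCoeff ⇑f ℓ := by
    intro ℓ hℓ
    have := hrel ℓ hℓ 1
    rw [if_neg (by simpa using hℓ.one_lt.ne' : ¬ ℓ ∣ 1), mul_zero, add_zero, one_mul, h1,
      mul_one] at this
    exact this.symm
  have heig : FormalHecke.IsEigensystem (fun ℓ => if ℓ ∣ N then 0 else (ℓ : ℂ))
      (fun n => qCoeff ⇑f n) := by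
    refine ⟨h1, fun ℓ hℓ n => ?_⟩
    have := hrel ℓ hℓ n
    rw [hlam ℓ hℓ, mul_comm n ℓ] at this
    exact this
  obtain ⟨-, hmul, hpow⟩ := isRecursive_of_isEigensystem heig
  refine ⟨h1, hmul, fun p r hp hpN => ?_, fun p r hp hpN => ?_⟩
  · have := hpow p r hp
    simp only [if_neg hpN] at this
    exact this
  · have := hpow p r hp
    simp only [if_pos hpN, zero_mul, sub_zero] at this
    exact this

theorem main (h : CuspForm.HasIntegralBasis N) {a : ℕ → ℤ}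
    (heig : FormalHecke.IsEigensystem
      (fun ℓ => if ℓ ∣ N then 0 else ((chiNegThree ℓ : ℤ) : ℤ)) a)
    (hreal : CuspForm.IsLatticeRealized N a) :
    ∃ (f : CuspForm (Gamma0 N) 2) (_ : f.IsNormalizedEigenform)
      (𝔪' : Ideal (integralClosure ℤ ℂ)), 𝔪'.IsMaximal ∧
      ((3 : ℕ) : integralClosure ℤ ℂ) ∈ 𝔪' ∧
      ∀ (ℓ : ℕ) (_ : ℓ.Prime) (_ : ¬ ℓ ∣ N),
        ∃ c : integralClosure ℤ ℂ, (c : ℂ) = ModularFormClass.qCoeff f ℓ ∧
          c - (a ℓ : integralClosure ℤ ℂ) ∈ 𝔪' := by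
  classical
  obtain ⟨f₀, -, af, haf, hdiv⟩ := hreal
  have hafa : ∀ n, ((af n : ℤ) : ZMod 3) = ((a n : ℤ) : ZMod 3) := by
    intro n
    rw [← bridge_coeff_zmod a n]
    have := (ZMod.intCast_zmod_eq_zero_iff_dvd _ 3).mpr (hdiv n)
    push_cast at this
    exact sub_eq_zero.mp this
  have hIne : eigIdeal f₀ ≠ ⊤ := fun htop =>
    one_not_mem_eigIdeal f₀ af haf heig.1 hafa (htop ▸ Submodule.mem_top)
  obtain ⟨𝔫, h𝔫max, hI𝔫⟩ := Ideal.exists_le_maximal (eigIdeal f₀) hIne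
  have hLstab : ∀ T : heckeAlgebra N 2 (∅ : Set ℕ), ∀ v ∈ intLattice N 2,
      heckeIncl N T v ∈ intLattice N 2 := fun T v hv =>
    CuspForm.mem_intLattice_of_mem_heckeAlgebra (by norm_num : (1 : ℤ) ≤ 2) T.2 hv
  obtain ⟨g, χ, 𝔪', hg0, hgeig, h𝔪'max, hχ𝔫⟩ := exists_eigen_lift (heckeIncl N)
    heckeIncl_injective (intLattice N 2) (CuspForm.intLattice_fg N 2)
    (span_intLattice_eq_top h) hLstab 𝔫
  -- the eigenvalues
  let lam : ℕ → ℂ := fun ℓ =>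
    if hℓ : ℓ.Prime then
      (if hℓN : ℓ ∣ N then
        ((χ (heckeAlgebra.U hℓ hℓN (Set.notMem_empty ℓ)) : integralClosure ℤ ℂ) : ℂ)
      else ((χ (heckeAlgebra.T hℓ hℓN (Set.notMem_empty ℓ)) : integralClosure ℤ ℂ) : ℂ))
    else 0
  have hrel : ∀ ℓ : ℕ, ℓ.Prime → ∀ n : ℕ,
      qCoeff ⇑g (n * ℓ) + (if ℓ ∣ N then 0 else (ℓ : ℂ)) *
        (if ℓ ∣ n then qCoeff ⇑g (n / ℓ) else 0) = lam ℓ * qCoeff ⇑g n := by
    intro ℓ hℓ n
    by_cases hℓN : ℓ ∣ N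
    · have h1 := hgeig (heckeAlgebra.U hℓ hℓN (Set.notMem_empty ℓ))
      have h2 := congrArg (fun F : CuspForm (Gamma0 N) 2 => qCoeff ⇑F n) h1
      rw [qc_smul] at h2
      have h3 : lam ℓ = ((χ (heckeAlgebra.U hℓ hℓN (Set.notMem_empty ℓ)) :
          integralClosure ℤ ℂ) : ℂ) := by
        simp only [lam, dif_pos hℓ, dif_pos hℓN]
      rw [h3, ← h2, if_pos hℓN, zero_mul, add_zero]
      exact (qc_U hℓ hℓN g n).symm
    · have h1 := hgeig (heckeAlgebra.T hℓ hℓN (Set.notMem_empty ℓ))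
      have h2 := congrArg (fun F : CuspForm (Gamma0 N) 2 => qCoeff ⇑F n) h1
      rw [qc_smul] at h2
      have h3 : lam ℓ = ((χ (heckeAlgebra.T hℓ hℓN (Set.notMem_empty ℓ)) :
          integralClosure ℤ ℂ) : ℂ) := by
        simp only [lam, dif_pos hℓ, dif_neg hℓN]
      rw [h3, ← h2, if_neg hℓN]
      have h4 := qc_T hℓ hℓN g n
      rw [show heckeIncl N (heckeAlgebra.T hℓ hℓN (Set.notMem_empty ℓ)) g =
        heckeTLin 2 hℓ hℓN g from rfl, h4]
      split_ifs <;> ring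
  -- the first coefficient is nonzero
  have hc1 : qCoeff ⇑g 1 ≠ 0 := by
    intro h1
    apply hg0
    apply eq_zero_of_qc
    intro n
    induction n using Nat.strong_induction_on with
    | _ n ih =>
      rcases Nat.lt_or_ge n 2 with hn | hn
      · interval_cases n
        · exact qc_cusp g
        · exact h1
      · obtain ⟨p, hp, m, rfl⟩ : ∃ p, p.Prime ∧ ∃ m, n = p * m :=
          ⟨n.minFac, Nat.minFac_prime (by omega), Nat.minFac_dvd n⟩
        have hmpos : 0 < m := by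
          rcases Nat.eq_zero_or_pos m with h0 | h0
          · subst h0; omega
          · exact h0
        have hm : m < p * m := by
          have := hp.two_le
          nlinarith
        have e1 := hrel p hp m
        rw [ih m hm, mul_zero] at e1
        have e2 : (if p ∣ m then qCoeff ⇑g (m / p) else 0) = 0 := by
          split_ifs with hdvd
          · exact ih (m / p) (lt_of_le_of_lt (Nat.div_le_self m p) hm)
          · rfl
        rw [e2, mul_zero, add_zero, mul_comm m p] at e1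
        exact e1
  -- normalize
  refine ⟨(qCoeff ⇑g 1)⁻¹ • g, ?_, 𝔪', h𝔪'max, ?_, ?_⟩
  · apply isNormalizedEigenform_of_rel _ lam
    · rw [qc_smul, inv_mul_cancel₀ hc1]
    · intro ℓ hℓ n
      have := hrel ℓ hℓ n
      rw [qc_smul, qc_smul, qc_smul]
      split_ifs at this ⊢ <;> linear_combination (qCoeff ⇑g 1)⁻¹ * this
  · have h3 := hχ𝔫 3 (hI𝔫 (three_mem_eigIdeal f₀ af haf))
    rw [map_ofNat] at h3
    exact_mod_cast h3
  · intro ℓ hℓ hℓN
    refine ⟨χ (heckeAlgebra.T hℓ hℓN (Set.notMem_empty ℓ)), ?_, ?_⟩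
    · have e1 := hrel ℓ hℓ 1
      have h3 : lam ℓ = ((χ (heckeAlgebra.T hℓ hℓN (Set.notMem_empty ℓ)) :
          integralClosure ℤ ℂ) : ℂ) := by
        simp only [lam, dif_pos hℓ, dif_neg hℓN]
      rw [if_neg (by simpa using hℓ.one_lt.ne' : ¬ ℓ ∣ 1), mul_zero, add_zero, one_mul, h3]
        at e1
      rw [qc_smul, e1]
      field_simp
    · have h4 := hχ𝔫 _ (hI𝔫 (T_sub_mem_eigIdeal f₀ af haf heig hafa hℓ hℓN))
      rw [map_sub, map_intCast] at h4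
      exact h4

end Fermat.Agent.S49
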